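import Mathlib
import Fermat.Agent.Red.RRReduction
import Fermat.Agent.Red.FFLemmas

/-!
# MOONSHOT S19, block (G2): the chart on the kernel of reduction

Abstract setting of Program L: `S : Red.RedSetup A π` (a valued function field `F/K` with residue
function field `Ft/k` and a place reduction `r` with conservation), Riemann packages for `F/K` and
`Ft/k`.  Let `g ≥ genusFF K F`, `Pb : Fin g → Place k Ft` injective with `l(Σ Pb j) = 1`
(a non-special divisor of `g` distinct points on the special fibre) and `P0 : Fin g → Place K F`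
lifts (`r (P0 j) = Pb j`); this is a `ChartData S g`.

* `sumPts P` : the divisor `Σ_j P j`;
* `exists_smul_resF_ne_zero` : every nonzero function has a constant multiple of nonzero residue;
* `mapDomain_mem_principal` : the reduction of a principal divisor is principal;
* `kerRed S` : degree-zero divisors with principal reduction (contains the principal divisors);
* `ChartData.exists_chart` : `D ∈ kerRed S` is linearly equivalent to `Σ P j − Σ P0 j` with
  `r (P j) = Pb j` (one point in each residue disc);
* `ChartData.chart_unique` : these points are unique;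
* `ChartData.pt` (the chart), `r_pt`, `pt_spec`, `pt_eq_iff`, `pt_zero`, `pt_eq_pt_iff`,
  `pt_sumPts_sub` (surjectivity onto the product of the discs), `pt_add_eq_iff` (the addition law in
  the chart is detected by ONE function), `pt_mapDomain` (equivariance under a place permutation).
-/

set_option autoImplicit false

namespace Fermat.Agent.FF2.G2

open AlgebraicCurve Module Fermat.Agent.Red

/-! ### sums of points -/

section SumPts

variable {K F : Type*} [Field K] [Field F] [Algebra K F] {g : ℕ}

/-- The divisor `Σ_j P j` of a family of places. -/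
noncomputable def sumPts (P : Fin g → Place K F) : Divisor K F :=
  ∑ j, Finsupp.single (P j) 1

theorem sumPts_apply (P : Fin g → Place K F) (a : Place K F) :
    sumPts P a = ∑ j, (Finsupp.single (P j) (1 : ℤ)) a := by
  rw [sumPts, Finsupp.finsetSum_apply]

theorem sumPts_nonneg (P : Fin g → Place K F) : 0 ≤ sumPts P := by
  classical
  intro a
  rw [Finsupp.zero_apply, sumPts_apply]
  refine Finset.sum_nonneg fun j _ => ?_
  rw [Finsupp.single_apply]
  split_ifs <;> norm_num

theorem one_le_sumPts_apply (P : Fin g → Place K F) (j : Fin g) : 1 ≤ sumPts P (P j) := by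
  classical
  rw [sumPts_apply]
  have h := Finset.single_le_sum (f := fun i => (Finsupp.single (P i) (1 : ℤ)) (P j))
    (fun i _ => by
      rw [Finsupp.single_apply]
      split_ifs <;> norm_num) (Finset.mem_univ j)
  simpa using h

theorem sumPts_apply_of_injective {P : Fin g → Place K F} (hP : Function.Injective P)
    (j : Fin g) : sumPts P (P j) = 1 := by
  classical
  rw [sumPts_apply, Finset.sum_eq_single j]
  · rw [Finsupp.single_eq_same]
  · intro i _ hij
    rw [Finsupp.single_apply, if_neg (fun h => hij (hP h))]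
  · intro h
    exact absurd (Finset.mem_univ j) h

theorem sumPts_apply_of_notMem {P : Fin g → Place K F} {a : Place K F} (ha : ∀ j, P j ≠ a) :
    sumPts P a = 0 := by
  classical
  rw [sumPts_apply]
  refine Finset.sum_eq_zero fun j _ => ?_
  rw [Finsupp.single_apply, if_neg (ha j)]

/-- A place with nonzero coefficient in `Σ P j` is one of the `P j`. -/
theorem exists_eq_of_sumPts_apply_ne_zero {P : Fin g → Place K F} {a : Place K F}
    (ha : sumPts P a ≠ 0) : ∃ j, P j = a := by
  by_contra hcon
  push Not at hcon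
  exact ha (sumPts_apply_of_notMem hcon)

theorem mapDomain_sumPts {k Ft : Type*} [Field k] [Field Ft] [Algebra k Ft]
    (r : Place K F → Place k Ft) (P : Fin g → Place K F) :
    Finsupp.mapDomain r (sumPts P) = sumPts (fun j => r (P j)) := by
  rw [sumPts, Finsupp.mapDomain_finsetSum]
  exact Finset.sum_congr rfl fun j _ => Finsupp.mapDomain_single

theorem degree_sumPts (hF : RiemannPkg K F) (P : Fin g → Place K F) :
    Divisor.degree (sumPts P) = g := by
  rw [sumPts, map_sum]
  simp only [degree_single_of_pkg hF]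
  simp

/-- `1 ∈ L(Σ P j)`. -/
theorem one_mem_riemannRochSpace_sumPts (P : Fin g → Place K F) :
    (1 : F) ∈ riemannRochSpace (sumPts P) :=
  riemannRochSpace_mono (sumPts_nonneg P) one_mem_riemannRochSpace_zero

end SumPts

/-! ### general lemmas -/

section General

variable {K F : Type*} [Field K] [Field F] [Algebra K F]

/-- In a submodule of `F` of dimension `≤ 1` containing `1`, everything is constant. -/
theorem exists_algebraMap_of_finrank_le_one {L : Submodule K F} [Module.Finite K L]
    (hL : finrank K L ≤ 1) (h1 : (1 : F) ∈ L) {h : F} (hh : h ∈ L) :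
    ∃ a : K, h = algebraMap K F a := by
  obtain ⟨v, hv⟩ := finrank_le_one_iff.mp hL
  obtain ⟨c1, hc1⟩ := hv ⟨1, h1⟩
  obtain ⟨c2, hc2⟩ := hv ⟨h, hh⟩
  have hc1' : c1 • (v : F) = 1 := congrArg Subtype.val hc1
  have hc2' : c2 • (v : F) = h := congrArg Subtype.val hc2
  have hc10 : c1 ≠ 0 := by
    rintro rfl
    rw [zero_smul] at hc1'
    exact zero_ne_one hc1'
  refine ⟨c2 * c1⁻¹, ?_⟩
  have hv' : (v : F) = c1⁻¹ • (1 : F) := by
    rw [← hc1', smul_smul, inv_mul_cancel₀ hc10, one_smul]
  rw [← hc2', hv', smul_smul, Algebra.algebraMap_eq_smul_one]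

theorem mapDomain_neg' {α β : Type*} (f : α → β) (D : α →₀ ℤ) :
    Finsupp.mapDomain f (-D) = -Finsupp.mapDomain f D :=
  map_neg (Finsupp.mapDomain.addMonoidHom f) D

theorem mapDomain_sub' {α β : Type*} (f : α → β) (D D' : α →₀ ℤ) :
    Finsupp.mapDomain f (D - D') = Finsupp.mapDomain f D - Finsupp.mapDomain f D' :=
  map_sub (Finsupp.mapDomain.addMonoidHom f) D D'

end General

variable {K F k Ft : Type*} [Field K] [Field F] [Algebra K F] [Field k] [Field Ft]
  [Algebra k Ft] {A : ValuationSubring K} {π : A →+* k}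

variable (S : RedSetup (F := F) (Ft := Ft) A π)

/-! ### (G2.0) reduction of principal divisors -/

/-- **(G2.0a)** Every nonzero function has a constant multiple of nonzero residue. -/
theorem exists_smul_resF_ne_zero {f : F} (hf : f ≠ 0) : ∃ c : K, c ≠ 0 ∧ S.resF (c • f) ≠ 0 := by
  have hfin : Module.Finite K (⊥ : Submodule K F) := inferInstance
  obtain ⟨w, hw, c, hc, h, hne⟩ := S.approx ⊥ hfin f (by
    rw [Submodule.mem_bot]; exact hf)
  have hw0 : w = 0 := (Submodule.mem_bot K).1 hw
  subst hw0
  refine ⟨c, hc, ?_⟩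
  have h' : c • f ∈ S.O := by simpa using h
  have h0 := hne 0 (by simp)
  rw [map_zero] at h0
  rw [S.resF_of_mem h']
  intro hcon
  apply h0
  rw [← hcon]
  congr 1
  exact Subtype.ext (by simp)

/-- Conservation in `divOf` form: `r_* div f = div (res f)` when `res f ≠ 0`. -/
theorem mapDomain_divOf (hF : RiemannPkg K F) (hFt : RiemannPkg k Ft) {f : F}
    (hres : S.resF f ≠ 0) :
    have := hF.principal
    have := hFt.principal
    Finsupp.mapDomain S.r (divOf K f) = divOf k (S.resF f) := by
  have := hF.principal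
  have := hFt.principal
  ext Q
  rw [S.mapDomain_div_apply hres (divOf K f) (fun P => divOf_apply f P) Q, divOf_apply]

/-- **(G2.0b)** The reduction of a principal divisor is principal. -/
theorem mapDomain_mem_principal (hF : RiemannPkg K F) {D : Divisor K F}
    (hD : D ∈ Divisor.principal (K := K) (F := F)) :
    Finsupp.mapDomain S.r D ∈ Divisor.principal (K := k) (F := Ft) := by
  have := hF.principal
  obtain ⟨f, hf, rfl⟩ := mem_principal_iff_exists_divOf.mp hD
  obtain ⟨c, hc, hres⟩ := exists_smul_resF_ne_zero S hf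
  refine ⟨S.resF (c • f), hres, fun Q => ?_⟩
  refine S.mapDomain_div_apply hres (divOf K f) (fun P => ?_) Q
  rw [← divOf_smul c hc f, divOf_apply]

/-- The kernel of reduction on divisors: degree zero and principal reduction. -/
def kerRed : AddSubgroup (Divisor K F) where
  carrier := {D | Divisor.degree D = 0 ∧
    Finsupp.mapDomain S.r D ∈ Divisor.principal (K := k) (F := Ft)}
  zero_mem' := ⟨map_zero _, by rw [Finsupp.mapDomain_zero]; exact zero_mem _⟩
  add_mem' := fun {a b} ha hb => ⟨by rw [map_add, ha.1, hb.1, add_zero], by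
    rw [Finsupp.mapDomain_add]; exact add_mem ha.2 hb.2⟩
  neg_mem' := fun {a} ha => ⟨by rw [map_neg, ha.1, neg_zero], by
    rw [mapDomain_neg']; exact neg_mem ha.2⟩

theorem mem_kerRed {D : Divisor K F} : D ∈ kerRed S ↔ Divisor.degree D = 0 ∧
    Finsupp.mapDomain S.r D ∈ Divisor.principal (K := k) (F := Ft) := Iff.rfl

theorem principal_le_kerRed (hF : RiemannPkg K F) :
    Divisor.principal (K := K) (F := F) ≤ kerRed S := fun D hD =>
  have := hF.principal
  ⟨degree_eq_zero_of_mem_principal hD, mapDomain_mem_principal S hF hD⟩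

/-! ### (G2.1)–(G2.4) the chart -/

/-- Chart data: `g` distinct points `Pb j` of the special fibre with `l(Σ Pb j) = 1` and lifts
`P0 j` of them. -/
structure ChartData (g : ℕ) where
  /-- the points of the special fibre -/
  Pb : Fin g → Place k Ft
  /-- the base points of the generic fibre -/
  P0 : Fin g → Place K F
  Pb_injective : Function.Injective Pb
  nonspecial : finrank k (riemannRochSpace (sumPts Pb)) = 1
  r_P0 : ∀ j, S.r (P0 j) = Pb j

namespace ChartData

variable {S} {g : ℕ} (C : ChartData S g)

/-- The `j`-th residue disc. -/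
def Disc (j : Fin g) : Set (Place K F) := {P | S.r P = C.Pb j}

theorem mem_Disc {j : Fin g} {P : Place K F} : P ∈ C.Disc j ↔ S.r P = C.Pb j := Iff.rfl

theorem P0_mem_Disc (j : Fin g) : C.P0 j ∈ C.Disc j := C.r_P0 j

theorem injective_of_mem_Disc {P : Fin g → Place K F} (hP : ∀ j, P j ∈ C.Disc j) :
    Function.Injective P := fun i j hij =>
  C.Pb_injective (by rw [← (hP i : S.r (P i) = C.Pb i), ← (hP j : S.r (P j) = C.Pb j), hij])

theorem P0_injective : Function.Injective C.P0 := C.injective_of_mem_Disc C.P0_mem_Disc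

theorem mapDomain_sumPts_of_mem_Disc {P : Fin g → Place K F} (hP : ∀ j, P j ∈ C.Disc j) :
    Finsupp.mapDomain S.r (sumPts P) = sumPts C.Pb := by
  rw [mapDomain_sumPts]
  congr 1
  funext j
  exact hP j

/-- An effective divisor of degree `g` whose reduction is `Σ Pb j` is `Σ P j` with `P j` in the
`j`-th disc. -/
theorem exists_eq_sumPts (hF : RiemannPkg K F) {E : Divisor K F} (hE : 0 ≤ E)
    (hdeg : Divisor.degree E = g) (hrE : Finsupp.mapDomain S.r E = sumPts C.Pb) :
    ∃ P : Fin g → Place K F, (∀ j, P j ∈ C.Disc j) ∧ E = sumPts P := by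
  classical
  have hsupp : ∀ j, ∃ P : Place K F, P ∈ E.support ∧ S.r P = C.Pb j := by
    intro j
    have hmem : C.Pb j ∈ (Finsupp.mapDomain S.r E).support := by
      rw [hrE, Finsupp.mem_support_iff, sumPts_apply_of_injective C.Pb_injective]
      norm_num
    obtain ⟨P, hP, hPr⟩ := Finset.mem_image.mp (Finsupp.mapDomain_support hmem)
    exact ⟨P, hP, hPr⟩
  choose P hPsupp hPr using hsupp
  have hPinj : Function.Injective P := C.injective_of_mem_Disc hPr
  have hle : sumPts P ≤ E := by
    intro a
    by_cases ha : ∃ j, P j = a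
    · obtain ⟨j, rfl⟩ := ha
      rw [sumPts_apply_of_injective hPinj]
      have h0 := hE (P j)
      have hne := Finsupp.mem_support_iff.mp (hPsupp j)
      rw [Finsupp.zero_apply] at h0
      omega
    · push Not at ha
      rw [sumPts_apply_of_notMem ha]
      exact hE a
  have hzero : E - sumPts P = 0 :=
    eq_zero_of_nonneg_of_degree_eq_zero hF (sub_nonneg.mpr hle) (by
      rw [map_sub, hdeg, degree_sumPts hF, sub_self])
  exact ⟨P, hPr, sub_eq_zero.mp hzero⟩

/-- **(G2.1) existence of the chart**: a divisor in the kernel of reduction is linearly equivalent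
to `Σ P j − Σ P0 j` with `P j` in the `j`-th residue disc. -/
theorem exists_chart (hF : RiemannPkg K F) (hFt : RiemannPkg k Ft) (hg : genusFF K F ≤ g)
    {D : Divisor K F} (hD : D ∈ kerRed S) :
    ∃ P : Fin g → Place K F, (∀ j, P j ∈ C.Disc j) ∧
      sumPts P - sumPts C.P0 - D ∈ Divisor.principal (K := K) (F := F) := by
  classical
  have := hF.principal
  have := hFt.principal
  obtain ⟨hdeg, hred⟩ := hD
  have hdegP0 : Divisor.degree (sumPts C.P0) = g := degree_sumPts hF C.P0
  -- a nonzero function in `L(D + Σ P0)` with nonzero residue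
  have h1 : (1 : ℤ) ≤ finrank K (riemannRochSpace (D + sumPts C.P0)) := by
    have h := hF.riemann_le (D + sumPts C.P0)
    rw [map_add, hdeg, hdegP0] at h
    have hg' : (genusFF K F : ℤ) ≤ g := by exact_mod_cast hg
    linarith
  have hne : riemannRochSpace (D + sumPts C.P0) ≠ ⊥ := by
    intro hbot
    rw [hbot, finrank_bot] at h1
    norm_num at h1
  obtain ⟨f0, hf0L, hf0⟩ := (Submodule.ne_bot_iff _).mp hne
  obtain ⟨c, hc, hres⟩ := exists_smul_resF_ne_zero S hf0
  have hfL : c • f0 ∈ riemannRochSpace (D + sumPts C.P0) := Submodule.smul_mem _ c hf0L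
  have hf : c • f0 ≠ 0 := S.ne_zero_of_resF_ne_zero hres
  have hEnn : 0 ≤ divOf K (c • f0) + (D + sumPts C.P0) :=
    (mem_riemannRochSpace_iff_divOf.mp hfL).resolve_left hf
  have hEdeg : Divisor.degree (divOf K (c • f0) + (D + sumPts C.P0)) = g := by
    rw [map_add, degree_divOf, map_add, hdeg, hdegP0]
    ring
  -- its reduction is `Σ Pb`
  obtain ⟨t, ht, hDt⟩ := mem_principal_iff_exists_divOf.mp hred
  have hu : S.resF (c • f0) * t ≠ 0 := mul_ne_zero hres ht
  have hrE' : Finsupp.mapDomain S.r (divOf K (c • f0) + (D + sumPts C.P0)) =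
      divOf k (S.resF (c • f0) * t) + sumPts C.Pb := by
    rw [Finsupp.mapDomain_add, Finsupp.mapDomain_add, mapDomain_divOf S hF hFt hres, hDt,
      C.mapDomain_sumPts_of_mem_Disc C.P0_mem_Disc, divOf_mul hres ht, add_assoc]
  have hrEnn : 0 ≤ divOf k (S.resF (c • f0) * t) + sumPts C.Pb := by
    rw [← hrE']
    exact Finsupp.mapDomain_nonneg hEnn
  have huL : S.resF (c • f0) * t ∈ riemannRochSpace (sumPts C.Pb) :=
    mem_riemannRochSpace_iff_divOf.mpr (Or.inr hrEnn)
  haveI := hFt.finite_L (sumPts C.Pb)
  obtain ⟨a, ha⟩ := exists_algebraMap_of_finrank_le_one (le_of_eq C.nonspecial)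
    (one_mem_riemannRochSpace_sumPts C.Pb) huL
  have hrE : Finsupp.mapDomain S.r (divOf K (c • f0) + (D + sumPts C.P0)) = sumPts C.Pb := by
    rw [hrE', ha, divOf_algebraMap, zero_add]
  obtain ⟨P, hP, hEP⟩ := C.exists_eq_sumPts hF hEnn hEdeg hrE
  refine ⟨P, hP, ?_⟩
  have h2 : sumPts P - sumPts C.P0 - D = divOf K (c • f0) := by
    rw [← hEP]
    abel
  rw [h2]
  exact divOf_mem_principal hf

/-- `l(Σ P j) = 1` for points `P j` in the discs. -/
theorem finrank_riemannRochSpace_sumPts_le (hπ : Function.Surjective π) (hF : RiemannPkg K F)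
    (hFt : RiemannPkg k Ft) {P : Fin g → Place K F} (hP : ∀ j, P j ∈ C.Disc j) :
    finrank K (riemannRochSpace (sumPts P)) ≤ 1 := by
  have h := S.finrank_riemannRochSpace_le hπ hF hFt (sumPts P)
  rwa [C.mapDomain_sumPts_of_mem_Disc hP, C.nonspecial] at h

/-- **(G2.2) uniqueness of the chart**. -/
theorem chart_unique (hπ : Function.Surjective π) (hF : RiemannPkg K F) (hFt : RiemannPkg k Ft)
    {P P' : Fin g → Place K F} (hP : ∀ j, P j ∈ C.Disc j) (hP' : ∀ j, P' j ∈ C.Disc j)
    (h : sumPts P - sumPts P' ∈ Divisor.principal (K := K) (F := F)) : P = P' := by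
  have := hF.principal
  obtain ⟨s, hs, hdiv⟩ := mem_principal_iff_exists_divOf.mp h
  have hsL : s ∈ riemannRochSpace (sumPts P') := by
    rw [mem_riemannRochSpace_iff_divOf]
    right
    rw [← hdiv, sub_add_cancel]
    exact sumPts_nonneg P
  haveI := hF.finite_L (sumPts P')
  obtain ⟨a, ha⟩ := exists_algebraMap_of_finrank_le_one
    (C.finrank_riemannRochSpace_sumPts_le hπ hF hFt hP')
    (one_mem_riemannRochSpace_sumPts P') hsL
  have heq : sumPts P = sumPts P' := by
    rw [ha, divOf_algebraMap] at hdiv
    exact sub_eq_zero.mp hdiv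
  funext j
  have hne : sumPts P' (P j) ≠ 0 := by
    rw [← heq, sumPts_apply_of_injective (C.injective_of_mem_Disc hP)]
    norm_num
  obtain ⟨i, hi⟩ := exists_eq_of_sumPts_apply_ne_zero hne
  have hij : i = j := C.Pb_injective (by
    rw [← (hP' i : S.r (P' i) = C.Pb i), hi, (hP j : S.r (P j) = C.Pb j)])
  rw [← hi, hij]

end ChartData

end Fermat.Agent.FF2.G2
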