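import Mathlib
import Fermat.Agent.FF2.G2.Chart

/-!
# MOONSHOT S19, block (G2): the chart map `pt` and its bookkeeping

`C.pt hF hFt hg D : Fin g → Place K F` is the unique family of points `P j` in the residue discs
with `Σ P j − Σ P0 j ∼ D`, for `D ∈ kerRed S` (junk value `P0` otherwise).

* `pt_mem_Disc`, `pt_spec`, `pt_eq_iff` : characterisation;
* `pt_zero`, `pt_of_principal`, `pt_eq_pt_iff` : `pt` is injective modulo principal divisors;
* `sumPts_sub_mem_kerRed`, `pt_sumPts_sub` : `pt` is surjective onto the product of the discs;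
* `pt_add_eq_iff`, `pt_add_eq_of_mem_riemannRochSpace` : the addition law in the chart is detected
  by one function `s` with `div s ≥ Σ X + Σ Y − Σ Z − Σ P0`;
* `pt_neg_eq_iff` : the same for the inverse;
* `pt_mapDomain` : equivariance under a permutation of places compatible with everything.
-/

set_option autoImplicit false

namespace Fermat.Agent.FF2.G2

open AlgebraicCurve Module Fermat.Agent.Red

variable {K F k Ft : Type*} [Field K] [Field F] [Algebra K F] [Field k] [Field Ft]
  [Algebra k Ft] {A : ValuationSubring K} {π : A →+* k}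
  {S : RedSetup (F := F) (Ft := Ft) A π}

namespace ChartData

variable {g : ℕ} (C : ChartData S g)

open Classical in
/-- **(G2.3) the chart**: the points `P j` in the residue discs with `Σ P j − Σ P0 j ∼ D`. -/
noncomputable def pt (hF : RiemannPkg K F) (hFt : RiemannPkg k Ft) (hg : genusFF K F ≤ g)
    (D : Divisor K F) : Fin g → Place K F :=
  if hD : D ∈ kerRed S then Classical.choose (C.exists_chart hF hFt hg hD) else C.P0

variable (hπ : Function.Surjective π) (hF : RiemannPkg K F) (hFt : RiemannPkg k Ft)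
  (hg : genusFF K F ≤ g)

theorem pt_mem_Disc (D : Divisor K F) (j : Fin g) : C.pt hF hFt hg D j ∈ C.Disc j := by
  classical
  by_cases hD : D ∈ kerRed S
  · rw [pt, dif_pos hD]
    exact (Classical.choose_spec (C.exists_chart hF hFt hg hD)).1 j
  · rw [pt, dif_neg hD]
    exact C.P0_mem_Disc j

theorem r_pt (D : Divisor K F) (j : Fin g) : S.r (C.pt hF hFt hg D j) = C.Pb j :=
  C.pt_mem_Disc hF hFt hg D j

theorem pt_spec {D : Divisor K F} (hD : D ∈ kerRed S) :
    sumPts (C.pt hF hFt hg D) - sumPts C.P0 - D ∈ Divisor.principal (K := K) (F := F) := by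
  classical
  rw [pt, dif_pos hD]
  exact (Classical.choose_spec (C.exists_chart hF hFt hg hD)).2

include hπ in
/-- Characterisation of the chart. -/
theorem pt_eq_iff {D : Divisor K F} (hD : D ∈ kerRed S) {P : Fin g → Place K F}
    (hP : ∀ j, P j ∈ C.Disc j) :
    C.pt hF hFt hg D = P ↔
      sumPts P - sumPts C.P0 - D ∈ Divisor.principal (K := K) (F := F) := by
  constructor
  · rintro rfl
    exact C.pt_spec hF hFt hg hD
  · intro h
    refine C.chart_unique hπ hF hFt (C.pt_mem_Disc hF hFt hg D) hP ?_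
    have h1 := sub_mem (C.pt_spec hF hFt hg hD) h
    have h2 : sumPts (C.pt hF hFt hg D) - sumPts C.P0 - D - (sumPts P - sumPts C.P0 - D) =
        sumPts (C.pt hF hFt hg D) - sumPts P := by abel
    rwa [h2] at h1

include hπ in
theorem pt_zero : C.pt hF hFt hg 0 = C.P0 := by
  rw [C.pt_eq_iff hπ hF hFt hg (zero_mem _) C.P0_mem_Disc, sub_self, sub_zero]
  exact zero_mem _

include hπ in
/-- The chart of a principal divisor is the base point. -/
theorem pt_of_principal {D : Divisor K F} (hD : D ∈ Divisor.principal (K := K) (F := F)) :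
    C.pt hF hFt hg D = C.P0 := by
  rw [C.pt_eq_iff hπ hF hFt hg (principal_le_kerRed S hF hD) C.P0_mem_Disc, sub_self, zero_sub]
  exact neg_mem hD

include hπ in
/-- The chart is injective modulo principal divisors. -/
theorem pt_eq_pt_iff {D D' : Divisor K F} (hD : D ∈ kerRed S) (hD' : D' ∈ kerRed S) :
    C.pt hF hFt hg D = C.pt hF hFt hg D' ↔
      D - D' ∈ Divisor.principal (K := K) (F := F) := by
  rw [C.pt_eq_iff hπ hF hFt hg hD (C.pt_mem_Disc hF hFt hg D')]
  have h' := C.pt_spec hF hFt hg hD'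
  constructor
  · intro h
    have h1 := sub_mem h' h
    have h2 : sumPts (C.pt hF hFt hg D') - sumPts C.P0 - D' -
        (sumPts (C.pt hF hFt hg D') - sumPts C.P0 - D) = D - D' := by abel
    rwa [h2] at h1
  · intro h
    have h1 := sub_mem h' h
    have h2 : sumPts (C.pt hF hFt hg D') - sumPts C.P0 - D' - (D - D') =
        sumPts (C.pt hF hFt hg D') - sumPts C.P0 - D := by abel
    rwa [h2] at h1

include hF in
/-- Differences `Σ P j − Σ P' j` of points in the discs lie in the kernel of reduction. -/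
theorem sumPts_sub_mem_kerRed {P P' : Fin g → Place K F} (hP : ∀ j, P j ∈ C.Disc j)
    (hP' : ∀ j, P' j ∈ C.Disc j) : sumPts P - sumPts P' ∈ kerRed S := by
  refine ⟨by rw [map_sub, degree_sumPts hF, degree_sumPts hF, sub_self], ?_⟩
  rw [mapDomain_sub', C.mapDomain_sumPts_of_mem_Disc hP, C.mapDomain_sumPts_of_mem_Disc hP',
    sub_self]
  exact zero_mem _

include hπ in
/-- The chart is surjective onto the product of the discs. -/
theorem pt_sumPts_sub {P : Fin g → Place K F} (hP : ∀ j, P j ∈ C.Disc j) :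
    C.pt hF hFt hg (sumPts P - sumPts C.P0) = P := by
  rw [C.pt_eq_iff hπ hF hFt hg (C.sumPts_sub_mem_kerRed hF hP C.P0_mem_Disc) hP, sub_self]
  exact zero_mem _

/-- Every divisor in the kernel of reduction is equivalent to the standard representative of
its chart. -/
theorem sub_sumPts_pt_mem_principal {D : Divisor K F} (hD : D ∈ kerRed S) :
    D - (sumPts (C.pt hF hFt hg D) - sumPts C.P0) ∈ Divisor.principal (K := K) (F := F) := by
  have h := neg_mem (C.pt_spec hF hFt hg hD)
  have h2 : -(sumPts (C.pt hF hFt hg D) - sumPts C.P0 - D) =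
      D - (sumPts (C.pt hF hFt hg D) - sumPts C.P0) := by abel
  rwa [h2] at h

include hπ in
/-- **Addition in the chart**: `Z` is the chart of `D + D'` iff
`Σ Z + Σ P0 − Σ X − Σ Y` is principal, where `X`, `Y` are the charts of `D`, `D'`. -/
theorem pt_add_eq_iff {D D' : Divisor K F} (hD : D ∈ kerRed S) (hD' : D' ∈ kerRed S)
    {Z : Fin g → Place K F} (hZ : ∀ j, Z j ∈ C.Disc j) :
    C.pt hF hFt hg (D + D') = Z ↔
      sumPts Z + sumPts C.P0 - sumPts (C.pt hF hFt hg D) - sumPts (C.pt hF hFt hg D') ∈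
        Divisor.principal (K := K) (F := F) := by
  rw [C.pt_eq_iff hπ hF hFt hg (add_mem hD hD') hZ]
  have h1 := add_mem (C.pt_spec hF hFt hg hD) (C.pt_spec hF hFt hg hD')
  constructor
  · intro h
    have h2 := sub_mem h h1
    have h3 : sumPts Z - sumPts C.P0 - (D + D') -
        (sumPts (C.pt hF hFt hg D) - sumPts C.P0 - D +
          (sumPts (C.pt hF hFt hg D') - sumPts C.P0 - D')) =
        sumPts Z + sumPts C.P0 - sumPts (C.pt hF hFt hg D) - sumPts (C.pt hF hFt hg D') := by
      abel
    rwa [h3] at h2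
  · intro h
    have h2 := add_mem h h1
    have h3 : sumPts Z + sumPts C.P0 - sumPts (C.pt hF hFt hg D) - sumPts (C.pt hF hFt hg D') +
        (sumPts (C.pt hF hFt hg D) - sumPts C.P0 - D +
          (sumPts (C.pt hF hFt hg D') - sumPts C.P0 - D')) =
        sumPts Z - sumPts C.P0 - (D + D') := by
      abel
    rwa [h3] at h2

omit C in
include hF in
/-- A nonzero function `s ∈ L(M)` with `deg M = 0` has divisor `−M`; in particular `M` is
principal. -/
theorem mem_principal_of_mem_riemannRochSpace {M : Divisor K F} (hM : Divisor.degree M = 0)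
    {s : F} (hs : s ≠ 0) (hsM : s ∈ riemannRochSpace M) :
    M ∈ Divisor.principal (K := K) (F := F) :=
  mem_principal_of_degree_eq_zero_of_ne_bot hF hM
    ((Submodule.ne_bot_iff _).mpr ⟨s, hsM, hs⟩)

include hπ in
/-- **Addition in the chart, function form** (the form produced by (G4)): if a nonzero function
`s` has `div s ≥ Σ X + Σ Y − Σ Z − Σ P0` (i.e. `s ∈ L(Σ Z + Σ P0 − Σ X − Σ Y)`) with `Z j` in
the discs, then `Z` is the chart of `D + D'`. -/
theorem pt_add_eq_of_mem_riemannRochSpace {D D' : Divisor K F} (hD : D ∈ kerRed S)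
    (hD' : D' ∈ kerRed S) {Z : Fin g → Place K F} (hZ : ∀ j, Z j ∈ C.Disc j) {s : F} (hs : s ≠ 0)
    (hsL : s ∈ riemannRochSpace
      (sumPts Z + sumPts C.P0 - sumPts (C.pt hF hFt hg D) - sumPts (C.pt hF hFt hg D'))) :
    C.pt hF hFt hg (D + D') = Z := by
  rw [C.pt_add_eq_iff hπ hF hFt hg hD hD' hZ]
  refine mem_principal_of_mem_riemannRochSpace hF ?_ hs hsL
  rw [map_sub, map_sub, map_add, degree_sumPts hF, degree_sumPts hF, degree_sumPts hF,
    degree_sumPts hF]
  ring

include hπ in
/-- **Inverse in the chart**: `Z` is the chart of `−D` iff `Σ Z + Σ X − 2 Σ P0` is principal. -/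
theorem pt_neg_eq_iff {D : Divisor K F} (hD : D ∈ kerRed S)
    {Z : Fin g → Place K F} (hZ : ∀ j, Z j ∈ C.Disc j) :
    C.pt hF hFt hg (-D) = Z ↔
      sumPts Z + sumPts (C.pt hF hFt hg D) - sumPts C.P0 - sumPts C.P0 ∈
        Divisor.principal (K := K) (F := F) := by
  rw [C.pt_eq_iff hπ hF hFt hg (neg_mem hD) hZ]
  have h1 := C.pt_spec hF hFt hg hD
  constructor
  · intro h
    have h2 := add_mem h h1
    have h3 : sumPts Z - sumPts C.P0 - -D + (sumPts (C.pt hF hFt hg D) - sumPts C.P0 - D) =
        sumPts Z + sumPts (C.pt hF hFt hg D) - sumPts C.P0 - sumPts C.P0 := by abel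
    rwa [h3] at h2
  · intro h
    have h2 := sub_mem h h1
    have h3 : sumPts Z + sumPts (C.pt hF hFt hg D) - sumPts C.P0 - sumPts C.P0 -
        (sumPts (C.pt hF hFt hg D) - sumPts C.P0 - D) = sumPts Z - sumPts C.P0 - -D := by abel
    rwa [h3] at h2

include hπ in
/-- **(G2.4) equivariance**: let `τ` be a map of places which preserves principal divisors
(push-forward), fixes the base points and maps each disc into itself.  Then
`pt (τ_* D) = τ ∘ pt D`. -/
theorem pt_mapDomain (τ : Place K F → Place K F)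
    (hτprin : ∀ D : Divisor K F, D ∈ Divisor.principal (K := K) (F := F) →
      Finsupp.mapDomain τ D ∈ Divisor.principal (K := K) (F := F))
    (hτP0 : ∀ j, τ (C.P0 j) = C.P0 j)
    (hτDisc : ∀ j P, P ∈ C.Disc j → τ P ∈ C.Disc j)
    {D : Divisor K F} (hD : D ∈ kerRed S) (hτD : Finsupp.mapDomain τ D ∈ kerRed S) :
    C.pt hF hFt hg (Finsupp.mapDomain τ D) = fun j => τ (C.pt hF hFt hg D j) := by
  rw [C.pt_eq_iff hπ hF hFt hg hτD (fun j => hτDisc j _ (C.pt_mem_Disc hF hFt hg D j))]
  have h := hτprin _ (C.pt_spec hF hFt hg hD)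
  rw [mapDomain_sub', mapDomain_sub', mapDomain_sumPts, mapDomain_sumPts] at h
  have h2 : (fun j => τ (C.P0 j)) = C.P0 := funext hτP0
  rwa [h2] at h

end ChartData

end Fermat.Agent.FF2.G2
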