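import Mathlib
import Fermat.Agent.FF2.G2.ChartPt
import Fermat.Agent.FF2.Disc.Coordinate

/-!
# MOONSHOT S19, block (G2): coordinates on the kernel of reduction

`C : ChartData S g` (file `Chart.lean`) and, for each `j`, a disc coordinate `T j : DiscCoord S (Z j)`
(helper25's `FF2/Disc`) centred at the base point `C.P0 j`.  The chart `C.pt` composed with the
disc coordinates gives

`X.x hF hFt hg D : Fin g → {c : A // π c = 0}`,  `x(D)_j = t_j (P_j)`,

a bijection `kerRed S / principal ≃ (𝔪_A)^g`: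

* `x_coe` : `x(D)_j = evalAt (C.pt D j) (t j)`;
* `x_eq_iff` : `x D = x D' ↔ D - D' ∈ principal` (injectivity);
* `x_zero`, `x_of_principal`;
* `ptOf`, `x_sumPts_ptOf_sub` : surjectivity, with the explicit inverse `c ↦ Σ P_j(c_j) − Σ P0 j`;
* `x_add_eq_of_mem_riemannRochSpace` : the addition law is detected by one function (for (G4));
* `x_mapDomain` : equivariance.
-/

set_option autoImplicit false

namespace Fermat.Agent.FF2.G2

open AlgebraicCurve Module Fermat.Agent.Red Fermat.Agent.FF2.Disc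

variable {K F k Ft : Type*} [Field K] [Field F] [Algebra K F] [Field k] [Field Ft]
  [Algebra k Ft] {A : ValuationSubring K} {π : A →+* k}
  {S : RedSetup (F := F) (Ft := Ft) A π}

/-- Coordinates for a chart: a disc coordinate centred at each base point. -/
structure CoordData {g : ℕ} (C : ChartData S g) where
  /-- the excluded sets of the disc coordinates -/
  Z : Fin g → Set (Place K F)
  /-- the disc coordinates -/
  T : ∀ j, DiscCoord S (Z j)
  hT : ∀ j, (T j).P₀ = C.P0 j

/-- Existence of coordinates (from `DiscCoord.exists_of_genus_eq`, i.e. main's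
`RedSetup.exists_integral_localParameter`): any finite nonempty set `Z` of places whose reductions
avoid the `Pb j` can serve as the common excluded set. -/
theorem exists_of_genus_eq [Infinite k] (hπ : Function.Surjective π) (hF : RiemannPkg K F)
    (hFt : RiemannPkg k Ft) (hgen : genusFF k Ft = genusFF K F) {g : ℕ} (C : ChartData S g)
    (Z : Finset (Place K F)) (hZ : Z.Nonempty)
    (hZ' : ∀ j, C.Pb j ∉ S.r '' (Z : Set (Place K F))) :
    ∃ X : CoordData C, ∀ j, X.Z j = (Z : Set (Place K F)) := by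
  have h : ∀ j, ∃ T : DiscCoord S (Z : Set (Place K F)), T.P₀ = C.P0 j := fun j =>
    DiscCoord.exists_of_genus_eq hπ hF hFt hgen (C.P0 j) Z hZ (by
      rw [C.r_P0 j]
      exact hZ' j)
  choose T hT using h
  exact ⟨⟨fun _ => (Z : Set (Place K F)), T, hT⟩, fun _ => rfl⟩

namespace CoordData

variable {g : ℕ} {C : ChartData S g} (X : CoordData C)

theorem disc_eq (j : Fin g) : (X.T j).disc = C.Disc j := by
  ext P
  rw [DiscCoord.mem_disc, ChartData.mem_Disc, X.hT j, C.r_P0 j]

theorem mem_disc_iff {j : Fin g} {P : Place K F} : P ∈ (X.T j).disc ↔ P ∈ C.Disc j := by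
  rw [X.disc_eq]

variable (hπ : Function.Surjective π) (hF : RiemannPkg K F) (hFt : RiemannPkg k Ft)
  (hg : genusFF K F ≤ g)

/-- **The coordinates of the chart**: `x(D)_j = t_j (P_j)` where `Σ P_j − Σ P0_j ∼ D`. -/
noncomputable def x (D : Divisor K F) (j : Fin g) : {c : A // π c = 0} :=
  (X.T j).discEquiv hF ⟨C.pt hF hFt hg D j, X.mem_disc_iff.2 (C.pt_mem_Disc hF hFt hg D j)⟩

theorem x_coe (D : Divisor K F) (j : Fin g) :
    (((X.x hF hFt hg D j : {c : A // π c = 0}) : A) : K) =
      evalAt (C.pt hF hFt hg D j) (X.T j).t := rfl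

include hF in
/-- Two families of points in the discs with the same coordinates are equal. -/
theorem eq_of_evalAt_eq {P P' : Fin g → Place K F} (hP : ∀ j, P j ∈ C.Disc j)
    (hP' : ∀ j, P' j ∈ C.Disc j)
    (h : ∀ j, evalAt (P j) (X.T j).t = evalAt (P' j) (X.T j).t) : P = P' := by
  funext j
  exact (X.T j).evalAt_t_injOn hF (X.mem_disc_iff.2 (hP j)) (X.mem_disc_iff.2 (hP' j)) (h j)

theorem x_eq_x_iff_pt (D D' : Divisor K F) :
    X.x hF hFt hg D = X.x hF hFt hg D' ↔ C.pt hF hFt hg D = C.pt hF hFt hg D' := by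
  constructor
  · intro h
    refine X.eq_of_evalAt_eq hF (C.pt_mem_Disc hF hFt hg D) (C.pt_mem_Disc hF hFt hg D') fun j => ?_
    rw [← X.x_coe, ← X.x_coe, h]
  · intro h
    funext j
    apply Subtype.ext
    apply Subtype.ext
    rw [X.x_coe, X.x_coe, h]

include hπ in
/-- **Injectivity**: the coordinates separate the classes of the kernel of reduction. -/
theorem x_eq_iff {D D' : Divisor K F} (hD : D ∈ kerRed S) (hD' : D' ∈ kerRed S) :
    X.x hF hFt hg D = X.x hF hFt hg D' ↔ D - D' ∈ Divisor.principal (K := K) (F := F) := by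
  rw [X.x_eq_x_iff_pt, C.pt_eq_pt_iff hπ hF hFt hg hD hD']

theorem evalAt_P0 (j : Fin g) : evalAt (C.P0 j) (X.T j).t = 0 := by
  apply evalAt_eq_of_isValueAt
  rw [isValueAt_zero_iff, adicValuation_lt_one_iff]
  right
  rw [← X.hT j, (X.T j).hord]
  norm_num

include hπ in
theorem x_zero (j : Fin g) : (((X.x hF hFt hg 0 j : {c : A // π c = 0}) : A) : K) = 0 := by
  rw [X.x_coe, C.pt_zero hπ hF hFt hg, X.evalAt_P0]

include hπ in
theorem x_of_principal {D : Divisor K F} (hD : D ∈ Divisor.principal (K := K) (F := F))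
    (j : Fin g) : (((X.x hF hFt hg D j : {c : A // π c = 0}) : A) : K) = 0 := by
  rw [X.x_coe, C.pt_of_principal hπ hF hFt hg hD, X.evalAt_P0]

/-- The points of the discs with prescribed coordinates. -/
noncomputable def ptOf (c : Fin g → {c : A // π c = 0}) (j : Fin g) : Place K F :=
  (((X.T j).discEquiv hF).symm (c j) : (X.T j).disc)

theorem ptOf_mem_Disc (c : Fin g → {c : A // π c = 0}) (j : Fin g) :
    X.ptOf hF c j ∈ C.Disc j :=
  X.mem_disc_iff.1 (((X.T j).discEquiv hF).symm (c j)).2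

theorem evalAt_ptOf (c : Fin g → {c : A // π c = 0}) (j : Fin g) :
    evalAt (X.ptOf hF c j) (X.T j).t = ((c j : A) : K) := by
  have h := ((X.T j).discEquiv hF).apply_symm_apply (c j)
  have h2 := (X.T j).coe_discEquiv_apply hF (((X.T j).discEquiv hF).symm (c j))
  rw [h] at h2
  exact h2.symm

include hπ in
/-- **Surjectivity**, with explicit inverse. -/
theorem x_sumPts_ptOf_sub (c : Fin g → {c : A // π c = 0}) :
    X.x hF hFt hg (sumPts (X.ptOf hF c) - sumPts C.P0) = c := by
  funext j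
  apply Subtype.ext
  apply Subtype.ext
  rw [X.x_coe, C.pt_sumPts_sub hπ hF hFt hg (X.ptOf_mem_Disc hF c), X.evalAt_ptOf]

theorem sumPts_ptOf_sub_mem_kerRed (c : Fin g → {c : A // π c = 0}) :
    sumPts (X.ptOf hF c) - sumPts C.P0 ∈ kerRed S :=
  C.sumPts_sub_mem_kerRed hF (X.ptOf_mem_Disc hF c) C.P0_mem_Disc

/-- The chart is the family of points with coordinates `x D`. -/
theorem ptOf_x (D : Divisor K F) : X.ptOf hF (X.x hF hFt hg D) = C.pt hF hFt hg D := by
  refine X.eq_of_evalAt_eq hF (X.ptOf_mem_Disc hF _) (C.pt_mem_Disc hF hFt hg D) fun j => ?_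
  rw [X.evalAt_ptOf, X.x_coe]

include hπ in
/-- **Addition in coordinates, function form** (the form produced by (G4)): if a nonzero function
`s` lies in `L(Σ P(z) + Σ P0 − Σ P(x D) − Σ P(x D'))` then `x (D + D') = z`. -/
theorem x_add_eq_of_mem_riemannRochSpace {D D' : Divisor K F} (hD : D ∈ kerRed S)
    (hD' : D' ∈ kerRed S) (z : Fin g → {c : A // π c = 0}) {s : F} (hs : s ≠ 0)
    (hsL : s ∈ riemannRochSpace
      (sumPts (X.ptOf hF z) + sumPts C.P0 - sumPts (X.ptOf hF (X.x hF hFt hg D)) -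
        sumPts (X.ptOf hF (X.x hF hFt hg D')))) :
    X.x hF hFt hg (D + D') = z := by
  rw [X.ptOf_x, X.ptOf_x] at hsL
  have h := C.pt_add_eq_of_mem_riemannRochSpace hπ hF hFt hg hD hD' (X.ptOf_mem_Disc hF z) hs hsL
  funext j
  apply Subtype.ext
  apply Subtype.ext
  rw [X.x_coe, h, X.evalAt_ptOf]

include hπ in
/-- **Equivariance in coordinates**: `τ` a map of places preserving principal divisors, fixing the
base points and the discs, `σ : K → K` with `t_j (τ P) = σ (t_j P)` on the discs.  Then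
`x (τ_* D)_j = σ (x(D)_j)`. -/
theorem x_mapDomain (τ : Place K F → Place K F) (σ : K → K)
    (hτprin : ∀ D : Divisor K F, D ∈ Divisor.principal (K := K) (F := F) →
      Finsupp.mapDomain τ D ∈ Divisor.principal (K := K) (F := F))
    (hτP0 : ∀ j, τ (C.P0 j) = C.P0 j)
    (hτDisc : ∀ j P, P ∈ C.Disc j → τ P ∈ C.Disc j)
    (hτt : ∀ j P, P ∈ C.Disc j → evalAt (τ P) (X.T j).t = σ (evalAt P (X.T j).t))
    {D : Divisor K F} (hD : D ∈ kerRed S) (hτD : Finsupp.mapDomain τ D ∈ kerRed S) (j : Fin g) :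
    (((X.x hF hFt hg (Finsupp.mapDomain τ D) j : {c : A // π c = 0}) : A) : K) =
      σ (((X.x hF hFt hg D j : {c : A // π c = 0}) : A) : K) := by
  rw [X.x_coe, X.x_coe, C.pt_mapDomain hπ hF hFt hg τ hτprin hτP0 hτDisc hD hτD]
  exact hτt j _ (C.pt_mem_Disc hF hFt hg D j)

end CoordData

end Fermat.Agent.FF2.G2
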