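import Mathlib
import Fermat.Agent.FF2.G2.Coord
import Fermat.Agent.FF2.Disc.Galois
import Fermat.Agent.Red.NormalForm
import Fermat.Prelude.Def_AlgebraicCurve_BaseChangeGalois

/-!
# MOONSHOT S19, block (G2)/(G5-C): the chart on the kernel of reduction, `Pic⁰` level

* `redPic S hF : Pic0 K F →+ Pic0 k Ft` : the reduction of divisor classes; `redPic_mk`;
  `redPic_surjective`.
* `kerRedPic S : AddSubgroup (Pic0 K F)` : classes of divisors in `kerRed S`;
  `mk_mem_kerRedPic_iff`, `ker_redPic : (redPic S hF).ker = kerRedPic S`.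
* `CoordData.xPic hF hFt hg : Pic0 K F → Fin g → {c : A // π c = 0}` : the coordinates of a class
  (junk outside `kerRedPic S`); `xPic_mk`; `xPic_eq_iff` (injective on `kerRedPic S`);
  `xPic_zero`; `exists_xPic_eq` (surjective onto `(𝔪_A)^g`); `xPic_smul` (semilinear equivariance:
  `x (g • u)_j = baseAut g (x(u)_j)` for `g : SemilinearAut K F` compatible with the chart).
-/

set_option autoImplicit false

namespace Fermat.Agent.FF2.G2

open AlgebraicCurve Module Fermat.Agent.Red Fermat.Agent.FF2.Disc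

variable {K F k Ft : Type*} [Field K] [Field F] [Algebra K F] [Field k] [Field Ft]
  [Algebra k Ft] {A : ValuationSubring K} {π : A →+* k}

theorem pic0_mk_eq_mk_iff {D D' : Divisor.degZero (K := K) (F := F)} :
    Pic0.mk D = Pic0.mk D' ↔
      (D : Divisor K F) - (D' : Divisor K F) ∈ Divisor.principal (K := K) (F := F) := by
  unfold Pic0.mk
  rw [QuotientAddGroup.eq, AddSubgroup.mem_addSubgroupOf]
  constructor
  · intro h
    have h2 := neg_mem h
    have h3 : -(((-D + D' : Divisor.degZero (K := K) (F := F)) : Divisor K F)) =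
        (D : Divisor K F) - (D' : Divisor K F) := by
      push_cast
      abel
    rwa [h3] at h2
  · intro h
    have h2 := neg_mem h
    have h3 : -((D : Divisor K F) - (D' : Divisor K F)) =
        ((-D + D' : Divisor.degZero (K := K) (F := F)) : Divisor K F) := by
      push_cast
      abel
    rwa [h3] at h2

variable (S : RedSetup (F := F) (Ft := Ft) A π)

/-- Reduction of degree-zero divisors. -/
noncomputable def redDegZero : Divisor.degZero (K := K) (F := F) →+
    Divisor.degZero (K := k) (F := Ft) :=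
  ((Finsupp.mapDomain.addMonoidHom S.r).comp
    (Divisor.degZero (K := K) (F := F)).subtype).codRestrict _ (fun D => by
      rw [Divisor.mem_degZero]
      show Divisor.degree (Finsupp.mapDomain S.r (D : Divisor K F)) = 0
      rw [S.degree_mapDomain]
      exact D.2)

@[simp]
theorem coe_redDegZero (D : Divisor.degZero (K := K) (F := F)) :
    (redDegZero S D : Divisor k Ft) = Finsupp.mapDomain S.r (D : Divisor K F) := rfl

/-- **Reduction of divisor classes.** -/
noncomputable def redPic (hF : RiemannPkg K F) : Pic0 K F →+ Pic0 k Ft :=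
  QuotientAddGroup.map _ _ (redDegZero S) (by
    rintro D hD
    rw [AddSubgroup.mem_comap, AddSubgroup.mem_addSubgroupOf, coe_redDegZero]
    exact mapDomain_mem_principal S hF (AddSubgroup.mem_addSubgroupOf.1 hD))

theorem redPic_mk (hF : RiemannPkg K F) (D : Divisor.degZero (K := K) (F := F)) :
    redPic S hF (Pic0.mk D) = Pic0.mk (redDegZero S D) := rfl

/-- The kernel of reduction in `Pic⁰`. -/
def kerRedPic : AddSubgroup (Pic0 K F) where
  carrier := {u | ∃ D : Divisor.degZero (K := K) (F := F),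
    (D : Divisor K F) ∈ kerRed S ∧ Pic0.mk D = u}
  zero_mem' := ⟨0, zero_mem _, rfl⟩
  add_mem' := by
    rintro _ _ ⟨D, hD, rfl⟩ ⟨D', hD', rfl⟩
    exact ⟨D + D', add_mem hD hD', rfl⟩
  neg_mem' := by
    rintro _ ⟨D, hD, rfl⟩
    exact ⟨-D, neg_mem hD, rfl⟩

theorem mem_kerRedPic {u : Pic0 K F} : u ∈ kerRedPic S ↔
    ∃ D : Divisor.degZero (K := K) (F := F), (D : Divisor K F) ∈ kerRed S ∧ Pic0.mk D = u :=
  Iff.rfl

theorem mk_mem_kerRedPic_iff (hF : RiemannPkg K F) (D : Divisor.degZero (K := K) (F := F)) :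
    Pic0.mk D ∈ kerRedPic S ↔ (D : Divisor K F) ∈ kerRed S := by
  constructor
  · rintro ⟨D', hD', h⟩
    have h1 := principal_le_kerRed S hF (pic0_mk_eq_mk_iff.1 h)
    have h2 := sub_mem hD' h1
    rwa [sub_sub_cancel] at h2
  · intro h
    exact ⟨D, h, rfl⟩

theorem ker_redPic (hF : RiemannPkg K F) : (redPic S hF).ker = kerRedPic S := by
  ext u
  obtain ⟨D, rfl⟩ := Pic0.mk_surjective u
  rw [AddMonoidHom.mem_ker, redPic_mk, mk_mem_kerRedPic_iff S hF, mem_kerRed]
  have h0 : (0 : Pic0 k Ft) = Pic0.mk 0 := rfl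
  rw [h0, pic0_mk_eq_mk_iff, coe_redDegZero]
  constructor
  · intro h
    refine ⟨D.2, ?_⟩
    simpa using h
  · rintro ⟨-, h⟩
    simpa using h

/-- Every class of the special fibre lifts. -/
theorem redPic_surjective (hF : RiemannPkg K F) : Function.Surjective (redPic S hF) := by
  haveI := hF.principal
  intro u
  obtain ⟨Db, rfl⟩ := Pic0.mk_surjective u
  have hsurj : Function.Surjective (Finsupp.mapDomain (M := ℤ) S.r) :=
    Finsupp.mapDomain_surjective (Fermat.Agent.Red.NormalForm.r_surjective S)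
  obtain ⟨D, hD⟩ := hsurj (Db : Divisor k Ft)
  have hdeg : D ∈ Divisor.degZero (K := K) (F := F) := by
    rw [Divisor.mem_degZero, ← S.degree_mapDomain, hD]
    exact Db.2
  refine ⟨Pic0.mk ⟨D, hdeg⟩, ?_⟩
  rw [redPic_mk]
  congr 1
  exact Subtype.ext hD

variable {S}

namespace CoordData

variable {g : ℕ} {C : ChartData S g} (X : CoordData C)
  (hπ : Function.Surjective π) (hF : RiemannPkg K F) (hFt : RiemannPkg k Ft)
  (hg : genusFF K F ≤ g)

/-- **Coordinates of a divisor class** (junk outside the kernel of reduction). -/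
noncomputable def xPic (u : Pic0 K F) : Fin g → {c : A // π c = 0} :=
  X.x hF hFt hg ((Classical.choose (Pic0.mk_surjective u) : Divisor.degZero (K := K) (F := F)) :
    Divisor K F)

include hπ in
theorem xPic_mk {D : Divisor.degZero (K := K) (F := F)} (hD : (D : Divisor K F) ∈ kerRed S) :
    X.xPic hF hFt hg (Pic0.mk D) = X.x hF hFt hg (D : Divisor K F) := by
  have hspec := Classical.choose_spec (Pic0.mk_surjective (Pic0.mk D))
  have hprin := pic0_mk_eq_mk_iff.1 hspec
  have hmem : ((Classical.choose (Pic0.mk_surjective (Pic0.mk D)) :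
      Divisor.degZero (K := K) (F := F)) : Divisor K F) ∈ kerRed S := by
    have h2 := add_mem (principal_le_kerRed S hF hprin) hD
    rwa [sub_add_cancel] at h2
  unfold xPic
  rw [X.x_eq_iff hπ hF hFt hg hmem hD]
  exact hprin

include hπ in
/-- **Injectivity** on the kernel of reduction. -/
theorem xPic_eq_iff {u u' : Pic0 K F} (hu : u ∈ kerRedPic S) (hu' : u' ∈ kerRedPic S) :
    X.xPic hF hFt hg u = X.xPic hF hFt hg u' ↔ u = u' := by
  obtain ⟨D, hD, rfl⟩ := hu
  obtain ⟨D', hD', rfl⟩ := hu'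
  rw [X.xPic_mk hπ hF hFt hg hD, X.xPic_mk hπ hF hFt hg hD', X.x_eq_iff hπ hF hFt hg hD hD',
    pic0_mk_eq_mk_iff]

include hπ in
theorem xPic_zero (j : Fin g) :
    (((X.xPic hF hFt hg 0 j : {c : A // π c = 0}) : A) : K) = 0 := by
  have h0 : (0 : Pic0 K F) = Pic0.mk 0 := rfl
  rw [h0, X.xPic_mk hπ hF hFt hg (zero_mem _)]
  exact X.x_zero hπ hF hFt hg j

include hπ in
/-- **Surjectivity** onto `(𝔪_A)^g`. -/
theorem exists_xPic_eq (c : Fin g → {c : A // π c = 0}) :
    ∃ u ∈ kerRedPic S, X.xPic hF hFt hg u = c := by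
  have hmem := X.sumPts_ptOf_sub_mem_kerRed hF c
  refine ⟨Pic0.mk ⟨sumPts (X.ptOf hF c) - sumPts C.P0, hmem.1⟩, ⟨_, hmem, rfl⟩, ?_⟩
  rw [X.xPic_mk hπ hF hFt hg hmem]
  exact X.x_sumPts_ptOf_sub hπ hF hFt hg c

include hπ in
/-- **Semilinear equivariance**: if `g : SemilinearAut K F` fixes the base points, the disc
coordinates `t j`, maps each disc to itself and preserves the kernel of reduction, then
`x (g • u)_j = baseAut g (x(u)_j)`. -/
theorem xPic_smul (γ : SemilinearAut K F) (hγP0 : ∀ j, γ • C.P0 j = C.P0 j)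
    (hγDisc : ∀ j P, P ∈ C.Disc j → γ • P ∈ C.Disc j)
    (hγt : ∀ j, γ • (X.T j).t = (X.T j).t)
    (hγker : ∀ D : Divisor K F, D ∈ kerRed S → γ • D ∈ kerRed S)
    {u : Pic0 K F} (hu : u ∈ kerRedPic S) (j : Fin g) :
    (((X.xPic hF hFt hg (γ • u) j : {c : A // π c = 0}) : A) : K) =
      SemilinearAut.baseAut γ (((X.xPic hF hFt hg u j : {c : A // π c = 0}) : A) : K) := by
  obtain ⟨D, hD, rfl⟩ := hu
  rw [SemilinearAut.pic0_smul_mk, X.xPic_mk hπ hF hFt hg hD,
    X.xPic_mk hπ hF hFt hg (by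
      rw [SemilinearAut.coe_degZeroSMulHom]
      exact hγker _ hD),
    SemilinearAut.coe_degZeroSMulHom, SemilinearAut.divisor_smul_def]
  refine X.x_mapDomain hπ hF hFt hg (γ • ·) (SemilinearAut.baseAut γ)
    (fun D hD => SemilinearAut.smul_mem_principal γ hD) hγP0 hγDisc (fun j P _ => ?_) hD
    (hγker _ hD) j
  have h := evalAt_smul_aut γ P (X.T j).t
  rwa [hγt j] at h

theorem smul_mem_kerRedPic (γ : SemilinearAut K F)
    (hγker : ∀ D : Divisor K F, D ∈ kerRed S → γ • D ∈ kerRed S)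
    {u : Pic0 K F} (hu : u ∈ kerRedPic S) : γ • u ∈ kerRedPic S := by
  obtain ⟨D, hD, rfl⟩ := hu
  rw [SemilinearAut.pic0_smul_mk]
  exact ⟨_, hγker _ hD, rfl⟩

end CoordData

end Fermat.Agent.FF2.G2
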