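import Mathlib
import Fermat.Agent.FF2.G2.Pic

/-!
# MOONSHOT S19, block (CH): chart coordinates from ONE family of disc coordinates

`Cof : Place k Ft → DiscCoord S Z` a family of disc coordinates indexed by the residue points (the
field `Cof` of helper15's `SF.GeoData`).  For a chart `C` whose base points are the centres of the
`Cof (C.Pb j)`:

* `CoordData.ofCof C Cof h : CoordData C` with `T j := Cof (C.Pb j)` (`ofCof_T`, `ofCof_Z` are `rfl`),

so that the coordinates `X.x` / `X.xPic` of the chart and the disc coordinates of the chords built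
from the SAME `Cof` are syntactically the same terms.
-/

set_option autoImplicit false

namespace Fermat.Agent.FF2.G2

open AlgebraicCurve Fermat.Agent.Red Fermat.Agent.FF2.Disc

variable {K F k Ft : Type*} [Field K] [Field F] [Algebra K F] [Field k] [Field Ft]
  [Algebra k Ft] {A : ValuationSubring K} {π : A →+* k}
  {S : RedSetup (F := F) (Ft := Ft) A π}

/-- Coordinates of a chart from a family of disc coordinates indexed by the residue points. -/
def CoordData.ofCof {g : ℕ} (C : ChartData S g) {Z : Set (Place K F)}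
    (Cof : Place k Ft → DiscCoord S Z) (h : ∀ j, (Cof (C.Pb j)).P₀ = C.P0 j) : CoordData C where
  Z := fun _ => Z
  T := fun j => Cof (C.Pb j)
  hT := h

theorem CoordData.ofCof_Z {g : ℕ} (C : ChartData S g) {Z : Set (Place K F)}
    (Cof : Place k Ft → DiscCoord S Z) (h : ∀ j, (Cof (C.Pb j)).P₀ = C.P0 j) (j : Fin g) :
    (CoordData.ofCof C Cof h).Z j = Z := rfl

theorem CoordData.ofCof_T {g : ℕ} (C : ChartData S g) {Z : Set (Place K F)}
    (Cof : Place k Ft → DiscCoord S Z) (h : ∀ j, (Cof (C.Pb j)).P₀ = C.P0 j) (j : Fin g) :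
    (CoordData.ofCof C Cof h).T j = Cof (C.Pb j) := rfl

theorem CoordData.ofCof_t {g : ℕ} (C : ChartData S g) {Z : Set (Place K F)}
    (Cof : Place k Ft → DiscCoord S Z) (h : ∀ j, (Cof (C.Pb j)).P₀ = C.P0 j) (j : Fin g) :
    ((CoordData.ofCof C Cof h).T j).t = (Cof (C.Pb j)).t := rfl

/-- The coordinates of `ofCof` are the values of the `Cof`-parameters at the points of the chart. -/
theorem CoordData.ofCof_x_coe {g : ℕ} (C : ChartData S g) {Z : Set (Place K F)}
    (Cof : Place k Ft → DiscCoord S Z) (h : ∀ j, (Cof (C.Pb j)).P₀ = C.P0 j)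
    (hF : RiemannPkg K F) (hFt : RiemannPkg k Ft) (hg : genusFF K F ≤ g)
    (D : Divisor K F) (j : Fin g) :
    ((((CoordData.ofCof C Cof h).x hF hFt hg D j : {c : A // π c = 0}) : A) : K) =
      evalAt (C.pt hF hFt hg D j) (Cof (C.Pb j)).t := rfl

end Fermat.Agent.FF2.G2
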