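import Mathlib
import Fermat.Agent.FF2.G2.Pic

/-!
# MOONSHOT S19, block (G5-C): fixed lifts of classes and rationality of the constants

* `exists_move` : moving lemma — every divisor is linearly equivalent to one avoiding a given
  finite set of places.
* `exists_fixed_lift` : if every place of the special fibre outside a finite set `Bad` has a lift
  fixed by a set `H` of semilinear automorphisms, then every class of `Pic⁰` of the special fibre is
  the reduction of the class of an `H`-fixed divisor of degree zero.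
* `CoordData.xPic_fixed` : the coordinates of an `H`-fixed class of the kernel of reduction are
  fixed by the base automorphisms of `H` (**rationality of the constants** `a_{γ,γ'}`).
* `exists_lifts` : a family of lifts `c : Γ → Pic0 K F` of a subgroup `Γ` of `Pic0 k Ft`, all
  `H`-fixed; `lift_cocycle_mem_kerRedPic`, `xPic_lift_cocycle_fixed` : the constants
  `c γ + c γ' − c (γ + γ')` lie in the kernel of reduction and have `H`-fixed coordinates.
-/

set_option autoImplicit false

namespace Fermat.Agent.FF2.G2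

open AlgebraicCurve Module Fermat.Agent.Red Fermat.Agent.FF2.Disc

/-- **Moving lemma.** -/
theorem exists_move {K F : Type*} [Field K] [Field F] [Algebra K F] [Infinite K]
    (hF : RiemannPkg K F) (D : Divisor K F) (Z : Finset (Place K F)) :
    ∃ D' : Divisor K F, D' - D ∈ Divisor.principal (K := K) (F := F) ∧ ∀ P ∈ Z, D' P = 0 := by
  haveI := hF.principal
  obtain ⟨f, hf, hford⟩ := exists_ord_eq_on_finset hF Z (fun P => -D P)
  refine ⟨D + divOf K f, ?_, fun P hP => ?_⟩
  · rw [add_sub_cancel_left]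
    exact divOf_mem_principal hf
  · rw [Finsupp.add_apply, divOf_apply, hford P hP, add_neg_cancel]

variable {K F k Ft : Type*} [Field K] [Field F] [Algebra K F] [Field k] [Field Ft]
  [Algebra k Ft] {A : ValuationSubring K} {π : A →+* k}

/-- **Fixed lifts of classes.** -/
theorem exists_fixed_lift (S : RedSetup (F := F) (Ft := Ft) A π) (hF : RiemannPkg K F)
    (hFt : RiemannPkg k Ft) [Infinite k] (H : Set (SemilinearAut K F))
    (Bad : Finset (Place k Ft))
    (hlift : ∀ Q : Place k Ft, Q ∉ Bad → ∃ P : Place K F, S.r P = Q ∧ ∀ γ ∈ H, γ • P = P)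
    (ub : Pic0 k Ft) :
    ∃ D : Divisor.degZero (K := K) (F := F),
      (∀ γ ∈ H, γ • (D : Divisor K F) = (D : Divisor K F)) ∧ redPic S hF (Pic0.mk D) = ub := by
  classical
  haveI := hF.principal
  haveI := hFt.principal
  obtain ⟨Db, rfl⟩ := Pic0.mk_surjective ub
  obtain ⟨Db', hprin, hBad⟩ := exists_move hFt (Db : Divisor k Ft) Bad
  -- a section of `r`, `H`-fixed outside `Bad`
  have hsec : ∀ Q : Place k Ft, ∃ P : Place K F, S.r P = Q ∧ (Q ∉ Bad → ∀ γ ∈ H, γ • P = P) := by
    intro Q
    by_cases hQ : Q ∈ Bad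
    · obtain ⟨P, hP⟩ := Fermat.Agent.Red.NormalForm.r_surjective S Q
      exact ⟨P, hP, fun h => absurd hQ h⟩
    · obtain ⟨P, hP, hfix⟩ := hlift Q hQ
      exact ⟨P, hP, fun _ => hfix⟩
  choose lift hlr hlfix using hsec
  have hrD : Finsupp.mapDomain S.r (Finsupp.mapDomain lift Db') = Db' := by
    rw [← Finsupp.mapDomain_comp]
    have : S.r ∘ lift = id := funext hlr
    rw [this, Finsupp.mapDomain_id]
  have hdegb : Divisor.degree Db' = 0 := by
    have h1 := degree_eq_zero_of_mem_principal (K := k) (F := Ft) hprin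
    rw [map_sub] at h1
    have h2 : Divisor.degree (Db : Divisor k Ft) = 0 := Db.2
    linarith
  have hdeg : Finsupp.mapDomain lift Db' ∈ Divisor.degZero (K := K) (F := F) := by
    rw [Divisor.mem_degZero, ← S.degree_mapDomain, hrD]
    exact hdegb
  refine ⟨⟨Finsupp.mapDomain lift Db', hdeg⟩, fun γ hγ => ?_, ?_⟩
  · show γ • Finsupp.mapDomain lift Db' = Finsupp.mapDomain lift Db'
    rw [SemilinearAut.divisor_smul_def, ← Finsupp.mapDomain_comp]
    refine Finsupp.mapDomain_congr fun Q hQ => ?_
    have hQB : Q ∉ Bad := fun h => (Finsupp.mem_support_iff.1 hQ) (hBad Q h)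
    exact hlfix Q hQB γ hγ
  · rw [redPic_mk, pic0_mk_eq_mk_iff, coe_redDegZero]
    show Finsupp.mapDomain S.r (Finsupp.mapDomain lift Db') - (Db : Divisor k Ft) ∈ _
    rw [hrD]
    exact hprin

variable {S : RedSetup (F := F) (Ft := Ft) A π}

namespace CoordData

variable {g : ℕ} {C : ChartData S g} (X : CoordData C)
  (hπ : Function.Surjective π) (hF : RiemannPkg K F) (hFt : RiemannPkg k Ft)
  (hg : genusFF K F ≤ g)

include hπ in
/-- **Rationality**: the coordinates of a fixed class are fixed. -/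
theorem xPic_fixed (γ : SemilinearAut K F) (hγP0 : ∀ j, γ • C.P0 j = C.P0 j)
    (hγDisc : ∀ j P, P ∈ C.Disc j → γ • P ∈ C.Disc j)
    (hγt : ∀ j, γ • (X.T j).t = (X.T j).t)
    (hγker : ∀ D : Divisor K F, D ∈ kerRed S → γ • D ∈ kerRed S)
    {u : Pic0 K F} (hu : u ∈ kerRedPic S) (hfix : γ • u = u) (j : Fin g) :
    SemilinearAut.baseAut γ (((X.xPic hF hFt hg u j : {c : A // π c = 0}) : A) : K) =
      (((X.xPic hF hFt hg u j : {c : A // π c = 0}) : A) : K) := by
  rw [← X.xPic_smul hπ hF hFt hg γ hγP0 hγDisc hγt hγker hu j, hfix]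

end CoordData

/-- **Lifts of a subgroup of classes**, all fixed by `H`. -/
theorem exists_lifts (S : RedSetup (F := F) (Ft := Ft) A π) (hF : RiemannPkg K F)
    (hFt : RiemannPkg k Ft) [Infinite k] (H : Set (SemilinearAut K F))
    (Bad : Finset (Place k Ft))
    (hlift : ∀ Q : Place k Ft, Q ∉ Bad → ∃ P : Place K F, S.r P = Q ∧ ∀ γ ∈ H, γ • P = P) :
    ∃ c : Pic0 k Ft → Pic0 K F, (∀ ub, redPic S hF (c ub) = ub) ∧
      ∀ ub, ∀ γ ∈ H, γ • c ub = c ub := by
  have h := fun ub => exists_fixed_lift S hF hFt H Bad hlift ub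
  choose D hDfix hDred using h
  refine ⟨fun ub => Pic0.mk (D ub), hDred, fun ub γ hγ => ?_⟩
  rw [SemilinearAut.pic0_smul_mk]
  congr 1
  exact Subtype.ext (by rw [SemilinearAut.coe_degZeroSMulHom]; exact hDfix ub γ hγ)

/-- The cocycle `c γ + c γ' − c (γ + γ')` of a family of lifts lies in the kernel of
reduction. -/
theorem lift_cocycle_mem_kerRedPic (hF : RiemannPkg K F) {c : Pic0 k Ft → Pic0 K F}
    (hc : ∀ ub, redPic S hF (c ub) = ub) (ub ub' : Pic0 k Ft) :
    c ub + c ub' - c (ub + ub') ∈ kerRedPic S := by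
  rw [← ker_redPic S hF, AddMonoidHom.mem_ker, map_sub, map_add, hc, hc, hc, sub_self]

/-- More generally, `v − c (red v)` lies in the kernel of reduction. -/
theorem sub_lift_mem_kerRedPic (hF : RiemannPkg K F) {c : Pic0 k Ft → Pic0 K F}
    (hc : ∀ ub, redPic S hF (c ub) = ub) (v : Pic0 K F) :
    v - c (redPic S hF v) ∈ kerRedPic S := by
  rw [← ker_redPic S hF, AddMonoidHom.mem_ker, map_sub, hc, sub_self]

end Fermat.Agent.FF2.G2
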