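import Mathlib
import Fermat.Agent.FF2.G2.Lift

/-!
# MOONSHOT S19, block (G5-C): filtered fixed lifts and the fixed part of the kernel of reduction

Referee's corrections R14/R15 (#1658):

* `exists_fixed_lift_filtered`, `exists_lifts_finset` : **filtered form of the lifting lemma** —
  `H : ℕ → Set (SemilinearAut K F)` antitone along divisibility (`m ∣ n → H n ⊆ H m`, e.g.
  `H n = Γ_n`), every place `Q` of the special fibre outside a finite set has a lift fixed by
  `H n` for SOME `n > 0` (depending on `Q`).  Then for every finite set `s` of classes of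
  `Pic0 k Ft` there is ONE `n > 0` and lifts `c ub` (`ub ∈ s`) fixed by `H n`.
* `kerRedPicFixed S H` : the `H`-fixed part of the kernel of reduction (an `AddSubgroup`), the
  correct `J0` for the uniform polynomial congruences;
  `CoordData.xPic_mem_fixed` : its coordinates are fixed by the base automorphisms of `H`.
-/

set_option autoImplicit false

namespace Fermat.Agent.FF2.G2

open AlgebraicCurve Module Fermat.Agent.Red Fermat.Agent.FF2.Disc

variable {K F k Ft : Type*} [Field K] [Field F] [Algebra K F] [Field k] [Field Ft]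
  [Algebra k Ft] {A : ValuationSubring K} {π : A →+* k}

/-- **Fixed lifts of classes, filtered form.** -/
theorem exists_fixed_lift_filtered (S : RedSetup (F := F) (Ft := Ft) A π) (hF : RiemannPkg K F)
    (hFt : RiemannPkg k Ft) [Infinite k] (H : ℕ → Set (SemilinearAut K F))
    (hH : ∀ m n : ℕ, m ∣ n → H n ⊆ H m) (Bad : Finset (Place k Ft))
    (hlift : ∀ Q : Place k Ft, Q ∉ Bad →
      ∃ n : ℕ, 0 < n ∧ ∃ P : Place K F, S.r P = Q ∧ ∀ γ ∈ H n, γ • P = P)
    (ub : Pic0 k Ft) :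
    ∃ n : ℕ, 0 < n ∧ ∃ D : Divisor.degZero (K := K) (F := F),
      (∀ γ ∈ H n, γ • (D : Divisor K F) = (D : Divisor K F)) ∧
        redPic S hF (Pic0.mk D) = ub := by
  classical
  haveI := hF.principal
  haveI := hFt.principal
  obtain ⟨Db, rfl⟩ := Pic0.mk_surjective ub
  obtain ⟨Db', hprin, hBad⟩ := exists_move hFt (Db : Divisor k Ft) Bad
  -- a section of `r` with levels
  have hsec : ∀ Q : Place k Ft, ∃ (n : ℕ) (P : Place K F), 0 < n ∧ S.r P = Q ∧
      (Q ∉ Bad → ∀ γ ∈ H n, γ • P = P) := by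
    intro Q
    by_cases hQ : Q ∈ Bad
    · obtain ⟨P, hP⟩ := Fermat.Agent.Red.NormalForm.r_surjective S Q
      exact ⟨1, P, one_pos, hP, fun h => absurd hQ h⟩
    · obtain ⟨n, hn, P, hP, hfix⟩ := hlift Q hQ
      exact ⟨n, P, hn, hP, fun _ => hfix⟩
  choose lev lift hlev hlr hlfix using hsec
  have hrD : Finsupp.mapDomain S.r (Finsupp.mapDomain lift Db') = Db' := by
    rw [← Finsupp.mapDomain_comp]
    have : S.r ∘ lift = id := funext hlr
    rw [this, Finsupp.mapDomain_id]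
  have hdegb : Divisor.degree Db' = 0 := by
    have h1 := degree_eq_zero_of_mem_principal (K := k) (F := Ft) hprin
    rw [map_sub] at h1
    have h2 : Divisor.degree (Db : Divisor k Ft) = 0 := Db.2
    linarith
  have hdeg : Finsupp.mapDomain lift Db' ∈ Divisor.degZero (K := K) (F := F) := by
    rw [Divisor.mem_degZero, ← S.degree_mapDomain, hrD]
    exact hdegb
  refine ⟨∏ Q ∈ Db'.support, lev Q, Finset.prod_pos fun Q _ => hlev Q,
    ⟨Finsupp.mapDomain lift Db', hdeg⟩, fun γ hγ => ?_, ?_⟩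
  · show γ • Finsupp.mapDomain lift Db' = Finsupp.mapDomain lift Db'
    rw [SemilinearAut.divisor_smul_def, ← Finsupp.mapDomain_comp]
    refine Finsupp.mapDomain_congr fun Q hQ => ?_
    have hQB : Q ∉ Bad := fun h => (Finsupp.mem_support_iff.1 hQ) (hBad Q h)
    exact hlfix Q hQB γ (hH _ _ (Finset.dvd_prod_of_mem lev hQ) hγ)
  · rw [redPic_mk, pic0_mk_eq_mk_iff, coe_redDegZero]
    show Finsupp.mapDomain S.r (Finsupp.mapDomain lift Db') - (Db : Divisor k Ft) ∈ _
    rw [hrD]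
    exact hprin

/-- **Lifts of finitely many classes at ONE level.** -/
theorem exists_lifts_finset (S : RedSetup (F := F) (Ft := Ft) A π) (hF : RiemannPkg K F)
    (hFt : RiemannPkg k Ft) [Infinite k] (H : ℕ → Set (SemilinearAut K F))
    (hH : ∀ m n : ℕ, m ∣ n → H n ⊆ H m) (Bad : Finset (Place k Ft))
    (hlift : ∀ Q : Place k Ft, Q ∉ Bad →
      ∃ n : ℕ, 0 < n ∧ ∃ P : Place K F, S.r P = Q ∧ ∀ γ ∈ H n, γ • P = P)
    (s : Finset (Pic0 k Ft)) :
    ∃ n : ℕ, 0 < n ∧ ∃ c : Pic0 k Ft → Pic0 K F, (∀ ub, redPic S hF (c ub) = ub) ∧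
      ∀ ub ∈ s, ∀ γ ∈ H n, γ • c ub = c ub := by
  classical
  have h := fun ub => exists_fixed_lift_filtered S hF hFt H hH Bad hlift ub
  choose lev hlev D hDfix hDred using h
  refine ⟨∏ ub ∈ s, lev ub, Finset.prod_pos fun ub _ => hlev ub, fun ub => Pic0.mk (D ub),
    hDred, fun ub hub γ hγ => ?_⟩
  rw [SemilinearAut.pic0_smul_mk]
  congr 1
  refine Subtype.ext ?_
  rw [SemilinearAut.coe_degZeroSMulHom]
  exact hDfix ub γ (hH _ _ (Finset.dvd_prod_of_mem lev hub) hγ)

variable (S : RedSetup (F := F) (Ft := Ft) A π)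

/-- **The `H`-fixed part of the kernel of reduction** (the correct `J0` for uniform polynomial
congruences: its coordinates lie in the fixed field of `H`). -/
def kerRedPicFixed (H : Set (SemilinearAut K F)) : AddSubgroup (Pic0 K F) where
  carrier := {u | u ∈ kerRedPic S ∧ ∀ γ ∈ H, γ • u = u}
  zero_mem' := ⟨zero_mem _, fun γ _ => smul_zero γ⟩
  add_mem' := fun {a b} ha hb => ⟨add_mem ha.1 hb.1, fun γ hγ => by
    rw [smul_add, ha.2 γ hγ, hb.2 γ hγ]⟩
  neg_mem' := fun {a} ha => ⟨neg_mem ha.1, fun γ hγ => by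
    rw [smul_neg, ha.2 γ hγ]⟩

theorem mem_kerRedPicFixed {H : Set (SemilinearAut K F)} {u : Pic0 K F} :
    u ∈ kerRedPicFixed S H ↔ u ∈ kerRedPic S ∧ ∀ γ ∈ H, γ • u = u := Iff.rfl

theorem kerRedPicFixed_le (H : Set (SemilinearAut K F)) : kerRedPicFixed S H ≤ kerRedPic S :=
  fun _ hu => hu.1

theorem kerRedPicFixed_anti {H H' : Set (SemilinearAut K F)} (h : H ⊆ H') :
    kerRedPicFixed S H' ≤ kerRedPicFixed S H := fun _ hu => ⟨hu.1, fun γ hγ => hu.2 γ (h hγ)⟩

variable {S}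

/-- `v − c (red v)` lies in the fixed part when `v` and `c (red v)` are fixed. -/
theorem sub_lift_mem_kerRedPicFixed (hF : RiemannPkg K F) {H : Set (SemilinearAut K F)}
    {c : Pic0 k Ft → Pic0 K F} (hc : ∀ ub, redPic S hF (c ub) = ub) {v : Pic0 K F}
    (hv : ∀ γ ∈ H, γ • v = v) (hcv : ∀ γ ∈ H, γ • c (redPic S hF v) = c (redPic S hF v)) :
    v - c (redPic S hF v) ∈ kerRedPicFixed S H :=
  ⟨sub_lift_mem_kerRedPic hF hc v, fun γ hγ => by rw [smul_sub, hv γ hγ, hcv γ hγ]⟩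

/-- The cocycle of fixed lifts lies in the fixed part. -/
theorem lift_cocycle_mem_kerRedPicFixed (hF : RiemannPkg K F) {H : Set (SemilinearAut K F)}
    {c : Pic0 k Ft → Pic0 K F} (hc : ∀ ub, redPic S hF (c ub) = ub) {ub ub' : Pic0 k Ft}
    (h1 : ∀ γ ∈ H, γ • c ub = c ub) (h2 : ∀ γ ∈ H, γ • c ub' = c ub')
    (h3 : ∀ γ ∈ H, γ • c (ub + ub') = c (ub + ub')) :
    c ub + c ub' - c (ub + ub') ∈ kerRedPicFixed S H :=
  ⟨lift_cocycle_mem_kerRedPic hF hc ub ub', fun γ hγ => by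
    rw [smul_sub, smul_add, h1 γ hγ, h2 γ hγ, h3 γ hγ]⟩

namespace CoordData

variable {g : ℕ} {C : ChartData S g} (X : CoordData C)
  (hπ : Function.Surjective π) (hF : RiemannPkg K F) (hFt : RiemannPkg k Ft)
  (hg : genusFF K F ≤ g)

include hπ in
/-- **The coordinates of the fixed part are fixed**: for `H` compatible with the chart, every
`u ∈ kerRedPicFixed S H` has `baseAut γ (x(u)_j) = x(u)_j` for all `γ ∈ H`. -/
theorem xPic_mem_fixed (H : Set (SemilinearAut K F))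
    (hHP0 : ∀ γ ∈ H, ∀ j, γ • C.P0 j = C.P0 j)
    (hHDisc : ∀ γ ∈ H, ∀ j P, P ∈ C.Disc j → γ • P ∈ C.Disc j)
    (hHt : ∀ γ ∈ H, ∀ j, γ • (X.T j).t = (X.T j).t)
    (hHker : ∀ γ ∈ H, ∀ D : Divisor K F, D ∈ kerRed S → γ • D ∈ kerRed S)
    {u : Pic0 K F} (hu : u ∈ kerRedPicFixed S H) (γ : SemilinearAut K F) (hγ : γ ∈ H)
    (j : Fin g) :
    SemilinearAut.baseAut γ (((X.xPic hF hFt hg u j : {c : A // π c = 0}) : A) : K) =
      (((X.xPic hF hFt hg u j : {c : A // π c = 0}) : A) : K) :=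
  X.xPic_fixed hπ hF hFt hg γ (hHP0 γ hγ) (hHDisc γ hγ) (hHt γ hγ) (hHker γ hγ) hu.1
    (hu.2 γ hγ) j

end CoordData

end Fermat.Agent.FF2.G2
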